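/- PORT to the constant field ℂ (helper78) of Fermat/Agent/Lib/Kronecker/ProdDefs.lean (helper20/helper42), verbatim with Qb = ℂ. -/
/-
Cluster B, KRONECKER congruence (helper20): INTERFACE for the product formula ("PROD")
    Norm_{F_{Nℓ}/F_N} (y(q^ℓ)) = y(q^ℓ) · ∏_{b<ℓ} y(ζ^b q^{1/ℓ})        (ℓ ∤ N).
Definitions only (no theorems, no proofs).  Uses the S24 analytic bridge:
`LL M` = field of modular functions of level `M` with the action of `SL(2,ℤ)`,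
`EmbFHom.embHom N M : F_N → LL M`, `EmbFHom.expLL M : LL M → ℚ̄((u))`, `u = exp(2πiτ/M)`.

* `ConjugateExpansions N ℓ` (analytic half, owner helper20): for every `b < ℓ` there is
  `γ_b ∈ Γ₀(N)` such that `γ_b • (y(q^ℓ))` has the expansion `y(ζ^b u^N)` (`u^N = q^{1/ℓ}`).
* `NormProductFormula N ℓ` (= PROD): `(T_ℓ y)(q^ℓ) = y(q^{ℓ²}) · ∏_{b<ℓ} y(ζ^b q)`.
  Algebraic half (Galois theory + degree `ℓ + 1`): `ConjugateExpansions N ℓ → NormProductFormula N ℓ`.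
-/
import Fermat.Agent.Lib.Kronecker.Formal
import Fermat.Agent.F3.Galois.NormDesc
import Fermat.Agent.F3.DictC.EmbFHom

set_option autoImplicit false

noncomputable section

namespace Fermat.Agent.KroneckerC

open Fermat.Agent.Kronecker

open ModularCurve
open scoped MatrixGroups

/-- `ℚ̄`. -/
abbrev Qb : Type := ℂ

/-- Analytic half of PROD: the `ℓ` "ramified" conjugates of `y(q^ℓ)` over `F_N` and their
expansions at `∞` in the parameter `u = exp(2πiτ/(Nℓ))`. -/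
def ConjugateExpansions (N ℓ : ℕ) [NeZero N] [NeZero ℓ] : Prop :=
  ∃ ζ : Qbˣ, IsPrimitiveRoot ζ ℓ ∧
    ∃ γ : ℕ → SL(2, ℤ), (∀ b, γ b ∈ CongruenceSubgroup.Gamma0 N) ∧
      ∀ (b : ℕ), b < ℓ → ∀ y : ↥(Fermat.Agent.F3Dict.FC N),
        Fermat.Agent.F3Dict.EmbFHom.expLL (N * ℓ)
            (γ b • Fermat.Agent.F3Dict.EmbFHom.embHom (N * ℓ) (N * ℓ) dvd_rfl
              (heckeBetaBar Qb N ℓ y)) =
          qExpand Qb N (scaleL (ζ ^ b) (y : LaurentSeries Qb))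

/-- PROD: the `q`-expansion of `T_ℓ y = Norm_{F_{Nℓ}/F_N} (y(q^ℓ))`, after `q ↦ q^ℓ`. -/
def NormProductFormula (N ℓ : ℕ) [NeZero N] [NeZero ℓ] : Prop :=
  ∃ ζ : Qbˣ, IsPrimitiveRoot ζ ℓ ∧
    ∀ y : ↥(Fermat.Agent.F3Dict.FC N),
      qExpand Qb ℓ ((Fermat.Agent.F3G.heckeFun Qb N ℓ y : ↥(Fermat.Agent.F3Dict.FC N)) :
          LaurentSeries Qb) =
        qExpand Qb (ℓ * ℓ) (y : LaurentSeries Qb) *
          ∏ b ∈ Finset.range ℓ, scaleL (ζ ^ b) (y : LaurentSeries Qb)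

end Fermat.Agent.KroneckerC
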