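/- PORT to the constant field ℂ (helper78) of Fermat/Agent/Lib/Kronecker/ConjGens.lean (helper20/helper42), verbatim with Qb = ℂ. -/
/-
Cluster B, KRONECKER congruence (helper20): analytic half of the product formula, part 1.
The matrix `δ = [[p, q], [N, ℓ]] ∈ Γ₀(N)`, `(δ⁻¹ • j_{dℓ})(τ) = j(dτ/ℓ)`, expansions, the action of
`T^b` on expansions, and an extensionality lemma for ring homomorphisms on the modular function
field over `ℚ̄`.
-/
import Mathlib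
import Fermat.Agent.F3.I2.NormC.ProdDefsC
import Fermat.Agent.F3.DictC.EmbFStab

set_option autoImplicit false

noncomputable section

namespace Fermat.Agent.KroneckerC

open Fermat.Agent.Kronecker

open ModularCurve UpperHalfPlane Fermat.Agent.F3Dict Fermat.Agent.F3Dict.GensExp
open scoped MatrixGroups


/-- The matrix `δ = [[p, q], [N, ℓ]]` of determinant one. -/
def deltaMat (p q : ℤ) (N ℓ : ℕ) (h : p * ℓ - q * N = 1) : SL(2, ℤ) :=
  ⟨!![p, q; (N : ℤ), (ℓ : ℤ)], by rw [Matrix.det_fin_two_of]; exact h⟩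

/-- The matrix `[[ℓ p, d q], [N', 1]]`, `N = d N'`, of determinant one. -/
def deltaMat' (p q : ℤ) (N' d ℓ : ℕ) (h : p * ℓ - q * (d * N' : ℕ) = 1) : SL(2, ℤ) :=
  ⟨!![(ℓ : ℤ) * p, (d : ℤ) * q; (N' : ℤ), 1], by
    rw [Matrix.det_fin_two_of]
    push_cast at h
    linear_combination h⟩

theorem deltaMat_mem_Gamma0 (p q : ℤ) (N ℓ : ℕ) (h : p * ℓ - q * N = 1) :
    deltaMat p q N ℓ h ∈ CongruenceSubgroup.Gamma0 N := by
  apply EmbFStab.mem_Gamma0_of_dvd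
  show (N : ℤ) ∣ (!![p, q; (N : ℤ), (ℓ : ℤ)] : Matrix (Fin 2) (Fin 2) ℤ) 1 0
  simp

theorem scale_deltaMat_smul (p q : ℤ) (N' d ℓ : ℕ) [NeZero d] [NeZero ℓ] [NeZero (d * ℓ)]
    (h : p * ℓ - q * (d * N' : ℕ) = 1) (τ : ℍ) :
    scale (d * ℓ) (deltaMat p q (d * N') ℓ h • τ) =
      deltaMat' p q N' d ℓ h •
        aff d ℓ 0 (Nat.pos_of_ne_zero (NeZero.ne d)) (Nat.pos_of_ne_zero (NeZero.ne ℓ)) τ := by
  apply UpperHalfPlane.ext
  have h1 := sl2_denom_ne_zero (deltaMat p q (d * N') ℓ h) τ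
  have h2 := sl2_denom_ne_zero (deltaMat' p q N' d ℓ h)
    (aff d ℓ 0 (Nat.pos_of_ne_zero (NeZero.ne d)) (Nat.pos_of_ne_zero (NeZero.ne ℓ)) τ)
  have hℓ : (ℓ : ℂ) ≠ 0 := by exact_mod_cast NeZero.ne ℓ
  rw [coe_scale, coe_sl2_smul, coe_sl2_smul, coe_aff]
  rw [coe_aff] at h2
  simp only [deltaMat, deltaMat'] at h1 h2 ⊢
  simp at h1 h2 ⊢
  field_simp

/-- `(δ⁻¹ • j_{dℓ})(τ) = j(dτ/ℓ)`. -/
theorem deltaMat_inv_smul_jd (p q : ℤ) (N' d ℓ : ℕ) [NeZero d] [NeZero ℓ] [NeZero (d * ℓ)]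
    (h : p * ℓ - q * (d * N' : ℕ) = 1) :
    ((deltaMat p q (d * N') ℓ h)⁻¹ • jd (d * ℓ) : Fun) =
      fun τ => jFun (aff d ℓ 0 (Nat.pos_of_ne_zero (NeZero.ne d))
        (Nat.pos_of_ne_zero (NeZero.ne ℓ)) τ) := by
  funext τ
  show jd (d * ℓ) ((deltaMat p q (d * N') ℓ h)⁻¹⁻¹ • τ) = _
  rw [inv_inv]
  show jFun (scale (d * ℓ) (deltaMat p q (d * N') ℓ h • τ)) = _
  rw [scale_deltaMat_smul, jFun_smul_pt]

/-- `j(dτ/ℓ) = ∑ cₙ u^{d N n}` in the parameter `u = exp(2πiτ/(Nℓ))`. -/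
theorem hasExp_jFun_aff (N d ℓ : ℕ) [NeZero N] [NeZero d] [NeZero ℓ] :
    HasExp (N * ℓ) (fun τ => jFun (aff d ℓ 0 (Nat.pos_of_ne_zero (NeZero.ne d))
        (Nat.pos_of_ne_zero (NeZero.ne ℓ)) τ))
      (qExpand Qb (d * N) (jqModC Qb)) := by
  have hN : 0 < N := Nat.pos_of_ne_zero (NeZero.ne N)
  have hd : 0 < d := Nat.pos_of_ne_zero (NeZero.ne d)
  have hℓ : 0 < ℓ := Nat.pos_of_ne_zero (NeZero.ne ℓ)
  rw [qExpand_jqModC]
  have hφ : ∀ τ : ℍ, uParam 1 (aff d ℓ 0 hd hℓ τ) = iota 1 * uParam (N * ℓ) τ ^ (d * N) := by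
    intro τ
    rw [uParam_one_aff (N * ℓ) d ℓ N 0 hd hℓ (mul_comm N ℓ) hN, map_one]
    simp
  exact hasExp_subst hasPExp_jFun (aff d ℓ 0 hd hℓ) 1 iota_one_norm (d * N) (Nat.mul_pos hd hN) hφ



/-- The expansion of `T^b • f`: the substitution `u ↦ z⁻ᵇ u`, `z = exp(2πi/M)`. -/
theorem hasExp_T_pow_smul (M : ℕ) [NeZero M] (z : Qbˣ)
    (hz : iota (z : Qb) = Complex.exp (2 * Real.pi * Complex.I / M)) {f : Fun}
    {a : LaurentSeries Qb} (hf : HasExp M f a) (b : ℕ) :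
    HasExp M (ModularGroup.T ^ b • f) (scaleL (z⁻¹ ^ b) a) := by
  induction b with
  | zero => rw [pow_zero, one_smul, pow_zero, scaleL_one]; exact hf
  | succ b ih =>
    obtain ⟨c, hc, ζ, hζ, hcoeff⟩ := HasExp.T_smul ih
    have hζz : ζ = (z : Qb) := iota_injective (by rw [hζ, hz])
    have hc' : c = scaleL (z⁻¹ ^ (b + 1)) a := by
      ext n
      rw [hcoeff n, pow_succ', scaleL_mul, hζz, scaleL_coeff z⁻¹, Units.val_zpow_eq_zpow_val,
        Units.val_inv_eq_inv_val]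
    rw [pow_succ', mul_smul, ← hc']
    exact hc



/-- The generator `j(q^d)` of the modular function field of level `N` over `ℚ̄`. -/
def jdBar (N d : ℕ) [NeZero d] (hd : d ∣ N) : ↥(Fermat.Agent.F3Dict.FC N) :=
  ⟨coeffEmb Qb (qExpand ℚ d jq), coeffEmb_mem_laurentBaseChange Qb (jqd_mem_full N hd)⟩

theorem coe_jdBar (N d : ℕ) [NeZero d] (hd : d ∣ N) :
    ((jdBar N d hd : ↥(Fermat.Agent.F3Dict.FC N)) : LaurentSeries Qb) =
      qExpand Qb d (jqModC Qb) := by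
  show coeffEmb Qb (qExpand ℚ d jq) = _
  unfold coeffEmb
  rw [coeffMap_qExpand, ← jqModC_rat, coeffMap_jqModC]

/-- Two ring homomorphisms from the modular function field over `ℚ̄` to a field that agree on the
constants and on the generators `j(q^d)`, `d ∣ N`, are equal. -/
theorem ringHom_ext_FBar (N : ℕ) {R : Type*} [Field R]
    (Φ₁ Φ₂ : ↥(Fermat.Agent.F3Dict.FC N) →+* R)
    (hc : ∀ c : Qb, Φ₁ (algebraMap Qb _ c) = Φ₂ (algebraMap Qb _ c))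
    (hg : ∀ (d : ℕ) (_ : NeZero d) (hd : d ∣ N), Φ₁ (jdBar N d hd) = Φ₂ (jdBar N d hd)) :
    Φ₁ = Φ₂ := by
  -- first on the rational function field
  have hrat : ∀ z : LaurentSeries ℚ, z ∈ modularFunctionFieldFull N →
      ∃ h : coeffEmb Qb z ∈ Fermat.Agent.F3Dict.FC N,
        Φ₁ ⟨coeffEmb Qb z, h⟩ = Φ₂ ⟨coeffEmb Qb z, h⟩ := by
    intro z hz
    unfold modularFunctionFieldFull at hz
    induction hz using IntermediateField.adjoin_induction with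
    | mem x hx =>
      obtain ⟨d, hdne, hd, rfl⟩ := hx
      exact ⟨_, hg d hdne hd⟩
    | algebraMap c =>
      have h1 : coeffEmb Qb (algebraMap ℚ (LaurentSeries ℚ) c) =
          algebraMap Qb (LaurentSeries Qb) (algebraMap ℚ Qb c) := by
        rw [eq_ratCast, map_ratCast, eq_ratCast, map_ratCast]
      refine ⟨by rw [h1]; exact (Fermat.Agent.F3Dict.FC N).algebraMap_mem _, ?_⟩
      have h2 := hc (algebraMap ℚ Qb c)
      convert h2 using 2 <;> exact Subtype.ext h1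
    | add x y _ _ hx hy =>
      obtain ⟨h1, e1⟩ := hx
      obtain ⟨h2, e2⟩ := hy
      refine ⟨by rw [map_add]; exact add_mem h1 h2, ?_⟩
      have : (⟨coeffEmb Qb (x + y), by rw [map_add]; exact add_mem h1 h2⟩ :
          ↥(Fermat.Agent.F3Dict.FC N)) = ⟨_, h1⟩ + ⟨_, h2⟩ := Subtype.ext (map_add _ _ _)
      rw [this, map_add, map_add, e1, e2]
    | inv x _ hx =>
      obtain ⟨h1, e1⟩ := hx
      refine ⟨by rw [map_inv₀]; exact inv_mem h1, ?_⟩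
      have : (⟨coeffEmb Qb x⁻¹, by rw [map_inv₀]; exact inv_mem h1⟩ :
          ↥(Fermat.Agent.F3Dict.FC N)) = (⟨_, h1⟩ : ↥(Fermat.Agent.F3Dict.FC N))⁻¹ :=
        Subtype.ext (map_inv₀ _ _)
      rw [this, map_inv₀, map_inv₀, e1]
    | mul x y _ _ hx hy =>
      obtain ⟨h1, e1⟩ := hx
      obtain ⟨h2, e2⟩ := hy
      refine ⟨by rw [map_mul]; exact mul_mem h1 h2, ?_⟩
      have : (⟨coeffEmb Qb (x * y), by rw [map_mul]; exact mul_mem h1 h2⟩ :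
          ↥(Fermat.Agent.F3Dict.FC N)) = ⟨_, h1⟩ * ⟨_, h2⟩ := Subtype.ext (map_mul _ _ _)
      rw [this, map_mul, map_mul, e1, e2]
  have hall : ∀ x : LaurentSeries Qb, x ∈ Fermat.Agent.F3Dict.FC N →
      ∃ h : x ∈ Fermat.Agent.F3Dict.FC N, Φ₁ ⟨x, h⟩ = Φ₂ ⟨x, h⟩ := by
    intro x hx
    rw [mem_laurentBaseChange_iff] at hx
    induction hx using Subfield.closure_induction with
    | mem y hy =>
      rcases hy with ⟨a, rfl⟩ | ⟨z, hz, rfl⟩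
      · exact ⟨(Fermat.Agent.F3Dict.FC N).algebraMap_mem _, hc a⟩
      · exact hrat z hz
    | one => exact ⟨one_mem _, by
        have : (⟨1, one_mem _⟩ : ↥(Fermat.Agent.F3Dict.FC N)) = 1 := rfl
        rw [this, map_one, map_one]⟩
    | add x y _ _ hx hy =>
      obtain ⟨h1, e1⟩ := hx
      obtain ⟨h2, e2⟩ := hy
      refine ⟨add_mem h1 h2, ?_⟩
      have : (⟨x + y, add_mem h1 h2⟩ : ↥(Fermat.Agent.F3Dict.FC N)) = ⟨_, h1⟩ + ⟨_, h2⟩ := rfl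
      rw [this, map_add, map_add, e1, e2]
    | neg x _ hx =>
      obtain ⟨h1, e1⟩ := hx
      refine ⟨neg_mem h1, ?_⟩
      have : (⟨-x, neg_mem h1⟩ : ↥(Fermat.Agent.F3Dict.FC N)) = -⟨_, h1⟩ := rfl
      rw [this, map_neg, map_neg, e1]
    | inv x _ hx =>
      obtain ⟨h1, e1⟩ := hx
      refine ⟨inv_mem h1, ?_⟩
      have : (⟨x⁻¹, inv_mem h1⟩ : ↥(Fermat.Agent.F3Dict.FC N)) =
          (⟨_, h1⟩ : ↥(Fermat.Agent.F3Dict.FC N))⁻¹ := rfl
      rw [this, map_inv₀, map_inv₀, e1]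
    | mul x y _ _ hx hy =>
      obtain ⟨h1, e1⟩ := hx
      obtain ⟨h2, e2⟩ := hy
      refine ⟨mul_mem h1 h2, ?_⟩
      have : (⟨x * y, mul_mem h1 h2⟩ : ↥(Fermat.Agent.F3Dict.FC N)) = ⟨_, h1⟩ * ⟨_, h2⟩ := rfl
      rw [this, map_mul, map_mul, e1, e2]
  ext ⟨x, hx⟩
  obtain ⟨_, e⟩ := hall x hx
  exact e


end Fermat.Agent.KroneckerC
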