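/- PORT to the constant field ℂ (helper78) of Fermat/Agent/Lib/Kronecker/NormProd.lean (helper20/helper42), verbatim with Qb = ℂ. -/
/-
Cluster B, KRONECKER, algebraic half of PROD (helper42):
    ConjugateExpansions N ℓ  →  NormProductFormula N ℓ        (ℓ prime, ℓ ∤ N).
Route: Galois datum `(SL(2,ℤ), LL (Nℓ), ℚ̄(j))` of S24, `[F_{Nℓ} : F_N] = ψ(Nℓ)/ψ(N) = ℓ + 1`,
the `ℓ + 1` embeddings `1, γ_b` are pairwise distinct, hence all; norm = product of embeddings.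
-/
import Fermat.Agent.F3.I2.NormC.ProdDefsC
import Fermat.Agent.Lib.Kronecker.NormEmb
import Fermat.Agent.F3.DictC.EmbF
import Fermat.Agent.F3.DictC.GlobalDatum
import Fermat.Agent.F3.DictC.InvariantsFinal
import Fermat.Agent.S24.Comb
import Fermat.Agent.S20.Cosets.Count

set_option autoImplicit false

noncomputable section

namespace Fermat.Agent.KroneckerC

open Fermat.Agent.Kronecker Fermat.Agent.S24

open ModularCurve AlgebraicCurve Fermat.Agent.F3Dict Fermat.Agent.F3Dict.EmbFHom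
open scoped MatrixGroups

/-- The stabiliser of the image of `F_N` in `LL M` is `Γ₀(N)` (any `M` divisible by `N`). -/
theorem mem_Gamma0_iff_smul_embHom (N M : ℕ) [NeZero N] [NeZero M] (hNM : N ∣ M)
    (γ : SL(2, ℤ)) :
    γ ∈ CongruenceSubgroup.Gamma0 N ↔
      ∀ x : ↥(Fermat.Agent.F3Dict.FC N), γ • embHom N M hNM x = embHom N M hNM x := by
  rw [mem_Gamma0_iff_forall_smul_jd]
  constructor
  · intro h x
    exact smul_eq_of_mem_genField N M hNM γ h (embHom_mem N M hNM x)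
  · intro h d hd hdN
    obtain ⟨x, hx⟩ := exists_embHom_eq N M hNM (jdLL_mem_genField N M d hNM hdN)
    have h1 := h x
    rw [hx] at h1
    exact (smul_jdLL_eq_iff M d (hdN.trans hNM) γ).mp h1

section Level

variable (N ℓ : ℕ) [NeZero N] [NeZero ℓ]

/-- `φ' ∘ α = φ`: the embeddings of `F_N` and `F_{Nℓ}` in `LL (Nℓ)` are compatible. -/
theorem embHom_heckeAlphaBar (x : ↥(Fermat.Agent.F3Dict.FC N)) :
    embHom (N * ℓ) (N * ℓ) dvd_rfl (heckeAlphaBar Qb N ℓ x)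
      = embHom N (N * ℓ) (dvd_mul_right N ℓ) x := by
  apply expLL_injective (N * ℓ)
  rw [expLL_embHom, expLL_embHom, coe_heckeAlphaBar]

omit [NeZero N] [NeZero ℓ] in
theorem dedekindPsi_mul_prime (hℓ : ℓ.Prime) (hℓN : ¬ ℓ ∣ N) :
    dedekindPsi (N * ℓ) = dedekindPsi N * (ℓ + 1) := by
  have hcop : N.Coprime ℓ := (Nat.Coprime.symm ((Nat.Prime.coprime_iff_not_dvd hℓ).mpr hℓN))
  rw [Fermat.Agent.S20.dedekindPsi_mul hcop]
  have h := Fermat.Agent.S20.dedekindPsi_prime_pow (p := ℓ) (k := 0) hℓ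
  rw [zero_add, pow_one, pow_zero] at h
  rw [h]

/-- **Degree**: `[F_{Nℓ} : F_N] = ℓ + 1` for a prime `ℓ ∤ N` (w.r.t. `heckeAlphaBar`). -/
theorem finrank_heckeAlphaBar (hℓ : ℓ.Prime) (hℓN : ¬ ℓ ∣ N) :
    letI := (heckeAlphaBar Qb N ℓ).toRingHom.toAlgebra
    FiniteDimensional ↥(Fermat.Agent.F3Dict.FC N) ↥(Fermat.Agent.F3Dict.FC (N * ℓ)) ∧
      Module.finrank ↥(Fermat.Agent.F3Dict.FC N) ↥(Fermat.Agent.F3Dict.FC (N * ℓ))
        = ℓ + 1 := by
  have hj : embHom N (N * ℓ) (dvd_mul_right N ℓ) (jBar N) = jLL (N * ℓ) :=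
    embHom_jq N (N * ℓ) (dvd_mul_right N ℓ) (jBar N) rfl
  obtain ⟨hfd, hrank⟩ := finrank_hom_mul_index_eq_index (Γ := SL(2, ℤ))
    (embHom N (N * ℓ) (dvd_mul_right N ℓ)) (embHom (N * ℓ) (N * ℓ) dvd_rfl)
    (heckeAlphaBar Qb N ℓ) (embHom_heckeAlphaBar N ℓ)
    (jBar N) (exists_finiteIndex_fixing (N * ℓ))
    (fun g => by rw [hj]; exact smul_jLL (N * ℓ) g)
    (fun x hx => by
      rw [hj]; exact Fermat.Agent.F3DictInv.mem_adjoin_jLL_of_invariant' (N * ℓ) x hx)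
    (CongruenceSubgroup.Gamma0 N) (CongruenceSubgroup.Gamma0 (N * ℓ))
    (mem_Gamma0_iff_smul_embHom N (N * ℓ) (dvd_mul_right N ℓ))
    (mem_Gamma0_iff_smul_embHom (N * ℓ) (N * ℓ) dvd_rfl)
  refine ⟨hfd, ?_⟩
  rw [index_Gamma0 N, index_Gamma0 (N * ℓ), dedekindPsi_mul_prime N ℓ hℓ hℓN, mul_comm] at hrank
  have hpos : 0 < dedekindPsi N := by
    rw [← index_Gamma0 N]
    exact Nat.pos_of_ne_zero Subgroup.FiniteIndex.index_ne_zero
  exact Nat.eq_of_mul_eq_mul_left hpos hrank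

/-- The expansion of the unramified conjugate `y(q^ℓ)` itself. -/
theorem expLL_embHom_heckeBetaBar (y : ↥(Fermat.Agent.F3Dict.FC N)) :
    expLL (N * ℓ) (embHom (N * ℓ) (N * ℓ) dvd_rfl (heckeBetaBar Qb N ℓ y))
      = qExpand Qb (N * ℓ * ℓ) (y : LaurentSeries Qb) := by
  rw [expLL_embHom, coe_heckeBetaBar, qExpand_qExpand]

/-- The coefficient of `u^{-N}` in the expansion of `y(q^ℓ)`, `y = j`, vanishes. -/
theorem coeff_expLL_beta_jBar (hℓ : 1 < ℓ) :
    (expLL (N * ℓ) (embHom (N * ℓ) (N * ℓ) dvd_rfl (heckeBetaBar Qb N ℓ (jBar N)))).coeff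
      (-(N : ℤ)) = 0 := by
  rw [expLL_embHom_heckeBetaBar]
  apply qExpand_coeff_of_not_dvd
  rw [Int.dvd_neg, Int.natCast_dvd_natCast]
  intro hdvd
  have hN : 0 < N := Nat.pos_of_ne_zero (NeZero.ne N)
  have h1 := Nat.le_of_dvd hN hdvd
  have h2 : N * 1 < N * (ℓ * ℓ) := by
    apply Nat.mul_lt_mul_of_pos_left _ hN
    nlinarith
  rw [mul_one, ← mul_assoc] at h2
  omega

/-- The coefficient of `u^{-N}` in `y(ζ u^N)`, `y = j`, is `ζ⁻¹`. -/
theorem coeff_qExpand_scaleL_jBar (z : Qbˣ) :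
    (qExpand Qb N (scaleL z ((jBar N : ↥(Fermat.Agent.F3Dict.FC N)) : LaurentSeries Qb))).coeff
      (-(N : ℤ)) = ((z⁻¹ : Qbˣ) : Qb) := by
  have h1 : (-(N : ℤ)) = (N : ℤ) * (-1) := by ring
  rw [h1, qExpand_coeff_mul, scaleL_coeff, coe_jBar_eq_jqModC, coeff_jqModC_neg_one, mul_one,
    zpow_neg_one]

/-- **PROD, algebraic half**: the norm product formula from the conjugate expansions. -/
theorem normProductFormula_of_conjugateExpansions (hℓ : ℓ.Prime) (hℓN : ¬ ℓ ∣ N)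
    (h : ConjugateExpansions N ℓ) : NormProductFormula N ℓ := by
  obtain ⟨ζ, hζ, γ, hγ, hexp⟩ := h
  refine ⟨ζ, hζ, fun y => ?_⟩
  obtain ⟨hfd, hrank⟩ := finrank_heckeAlphaBar N ℓ hℓ hℓN
  let g : Option (Fin ℓ) → SL(2, ℤ) := fun i => i.elim 1 (fun b => γ b)
  have hg : ∀ i, ∀ x : ↥(Fermat.Agent.F3Dict.FC N),
      g i • embHom N (N * ℓ) (dvd_mul_right N ℓ) x = embHom N (N * ℓ) (dvd_mul_right N ℓ) x := by
    intro i x
    cases i with
    | none => exact one_smul _ _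
    | some b => exact (mem_Gamma0_iff_smul_embHom N (N * ℓ) (dvd_mul_right N ℓ) (γ b)).mp (hγ b) x
  have hcoeff : ∀ i : Option (Fin ℓ),
      (expLL (N * ℓ) (g i • embHom (N * ℓ) (N * ℓ) dvd_rfl
        (heckeBetaBar Qb N ℓ (jBar N)))).coeff (-(N : ℤ))
        = i.elim 0 (fun b => (((ζ ^ (b : ℕ))⁻¹ : Qbˣ) : Qb)) := by
    intro i
    cases i with
    | none =>
      show (expLL (N * ℓ) ((1 : SL(2, ℤ)) • _)).coeff _ = 0
      rw [one_smul]
      exact coeff_expLL_beta_jBar N ℓ hℓ.one_lt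
    | some b =>
      show (expLL (N * ℓ) (γ b • _)).coeff _ = _
      rw [hexp b b.2 (jBar N)]
      exact coeff_qExpand_scaleL_jBar N (ζ ^ (b : ℕ))
  have hdist : ∀ i j : Option (Fin ℓ),
      (∀ x : ↥(Fermat.Agent.F3Dict.FC (N * ℓ)),
        g i • embHom (N * ℓ) (N * ℓ) dvd_rfl x = g j • embHom (N * ℓ) (N * ℓ) dvd_rfl x) →
      i = j := by
    intro i j hij
    have h1 := hcoeff i
    rw [hij (heckeBetaBar Qb N ℓ (jBar N)), hcoeff j] at h1
    cases i with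
    | none =>
      cases j with
      | none => rfl
      | some b' => exact absurd h1 (Units.ne_zero _)
    | some b =>
      cases j with
      | none => exact absurd h1.symm (Units.ne_zero _)
      | some b' =>
        have h2 : ζ ^ (b : ℕ) = ζ ^ (b' : ℕ) := by
          have := Units.ext h1
          exact (inv_inj.mp this).symm
        exact congrArg some (Fin.ext (hζ.pow_inj b.2 b'.2 h2))
  have hcard : (letI := (heckeAlphaBar Qb N ℓ).toRingHom.toAlgebra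
      Module.finrank ↥(Fermat.Agent.F3Dict.FC N) ↥(Fermat.Agent.F3Dict.FC (N * ℓ)))
        ≤ Fintype.card (Option (Fin ℓ)) := by
    rw [hrank, Fintype.card_option, Fintype.card_fin]
  have hprod := norm_hom_eq_prod_smul (Γ := SL(2, ℤ))
    (embHom N (N * ℓ) (dvd_mul_right N ℓ)) (embHom (N * ℓ) (N * ℓ) dvd_rfl)
    (heckeAlphaBar Qb N ℓ) (embHom_heckeAlphaBar N ℓ) hfd g hg hdist hcard
    (heckeBetaBar Qb N ℓ y)
  have h1 := congrArg (expLL (N * ℓ)) hprod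
  rw [expLL_embHom, map_prod, Fintype.prod_option] at h1
  have h2 : expLL (N * ℓ) (g none • embHom (N * ℓ) (N * ℓ) dvd_rfl (heckeBetaBar Qb N ℓ y))
      = qExpand Qb (N * ℓ * ℓ) (y : LaurentSeries Qb) := by
    show expLL (N * ℓ) ((1 : SL(2, ℤ)) • _) = _
    rw [one_smul]
    exact expLL_embHom_heckeBetaBar N ℓ y
  have h3 : ∀ b : Fin ℓ,
      expLL (N * ℓ) (g (some b) • embHom (N * ℓ) (N * ℓ) dvd_rfl (heckeBetaBar Qb N ℓ y))
        = qExpand Qb N (scaleL (ζ ^ (b : ℕ)) (y : LaurentSeries Qb)) :=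
    fun b => hexp b b.2 y
  rw [h2, Finset.prod_congr rfl (fun b _ => h3 b),
    Fin.prod_univ_eq_prod_range
      (fun b => qExpand Qb N (scaleL (ζ ^ b) (y : LaurentSeries Qb))) ℓ] at h1
  apply qExpand_injective (N := N)
  rw [qExpand_qExpand, map_mul, map_prod, qExpand_qExpand,
    qExpand_congr (show N * (ℓ * ℓ) = N * ℓ * ℓ by ring)]
  exact h1

end Level

end Fermat.Agent.KroneckerC
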